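import Fermat.Agent.DR.Conc.Frob
import Fermat.Agent.GAL.FF.General
import Fermat.Agent.Lib.RR.Main

/-!
# S41 / Tors : contract of the block TORS

`k` algebraically closed of characteristic `r`, every element of `k` algebraic over the prime field
(for `k = kk A` this is `S27.exists_pow_eq_self_residueField`).  Then every divisor of degree `0` of
the Igusa function field `E k M` has a nonzero multiple which is principal.
-/

set_option autoImplicit false

namespace Fermat.Agent.S41.Tors

open AlgebraicCurve Fermat.Agent.Lib.RR Fermat.Agent.GAL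

/-- **(TORS)** `Pic⁰ (E k M)` is a torsion group. -/
def TorsStatement : Prop :=
  ∀ (k : Type) [Field k] [IsAlgClosed k] (r : ℕ) [NeZero r] [Fact r.Prime] [CharP k r]
    [PerfectRing k r] (M : ℕ) [NeZero M] [IsFF k (Igusa.E k M)],
    (∀ a : k, ∃ n : ℕ, 0 < n ∧ a ^ (r ^ n) = a) →
    ∀ D : Divisor k (Igusa.E k M), Divisor.degree D = 0 →
      ∃ n : ℕ, 0 < n ∧ ∃ h : Igusa.E k M, h ≠ 0 ∧ divOf (K := k) h = n • D

end Fermat.Agent.S41.Tors
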