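import Fermat.Agent.S27.CharP
import Fermat.Agent.S41.Tors.Contract
import Fermat.Agent.GAL.Igusa.Level
import Fermat.Agent.GAL.RED.Concrete
import Fermat.Agent.GAL.Hecke.SeriesRed
import Fermat.Agent.Lib.Frobenius

/-!
# S41, block TORS: `Pic⁰` of a function field over `𝔽̄_r` is a torsion group (complete proof)

By-product of the proof of S27 (blocks K2, Frob, AZ): a function field `F / κ`, `κ = 𝔽̄_p`, has a
Frobenius; every divisor class of degree `0` is fixed by a power of it (`exists_pow_fix_cl0`) and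
the classes fixed by a given power form a finite group (`finite_fix_cl0_pow`).

EXPORTS
* `pic0_torsion`      : `κ` algebraically closed, `char κ = p`, every element of `κ` fixed by a power
                        of Frobenius, `[IsFF κ F]`, `deg D = 0`  ⟹  `∃ n > 0, ∃ h ≠ 0, n • D = divOf h`;
* `pic0_torsion_res`  : the same for `κ = ` residue field of a valuation subring `A` of `ℚ̄`;
* `pic0_torsion_E`    : the same for `F = Igusa.E κ M`.
-/

set_option autoImplicit false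

namespace Fermat.Agent.S41.Tors

open AlgebraicCurve Fermat.Agent.S27

universe u v

/-- abstract form: in an `AZData` every divisor of degree `0` has a principal multiple. -/
theorem exists_nsmul_mem_prin {S : Type*} (A : AZ.AZData S) (D : S →₀ ℤ)
    (hD : AZ.degHom S D = 0) : ∃ n : ℕ, 0 < n ∧ n • D ∈ A.Prin := by
  have hc : (QuotientAddGroup.mk D : A.Cl) ∈ A.Cl0 := hD
  obtain ⟨m, hm, hfix⟩ := A.exists_pow_fix_cl0 ⟨QuotientAddGroup.mk D, hc⟩
  have : Finite (AZ.LangAbs.fixSub A.phi0 m) := (A.finite_fix_cl0_pow m hm).to_subtype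
  have h1 := card_nsmul_eq_zero' (G := AZ.LangAbs.fixSub A.phi0 m)
    (x := ⟨⟨QuotientAddGroup.mk D, hc⟩, hfix⟩)
  refine ⟨Nat.card (AZ.LangAbs.fixSub A.phi0 m), Nat.card_pos, ?_⟩
  have h2 := congrArg (fun x : AZ.LangAbs.fixSub A.phi0 m => ((x : A.Cl0) : A.Cl)) h1
  exact (QuotientAddGroup.eq_zero_iff _).1 h2

/-- `κ` an algebraic closure of `𝔽_p`, hypothesis `CurveHyp`. -/
theorem pic0_torsion_of_curveHyp (p : ℕ) (hp : p.Prime) (κ : Type u) (F : Type v) [Field κ]
    [Field F] [Algebra κ F] [IsAlgClosed κ] [CharP κ p]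
    (hκ : ∀ a : κ, ∃ n : ℕ, 0 < n ∧ a ^ (p ^ n) = a) (hF : CurveHyp κ F)
    (D : Divisor κ F) (hD : Divisor.degree D = 0) :
    ∃ n : ℕ, 0 < n ∧ n • D ∈ Divisor.principal (K := κ) (F := F) := by
  obtain ⟨s, ⟨M⟩⟩ := Fermat.Agent.S27.K.stmtK2 RR.stmtRR κ F hF
  obtain ⟨A, hAP, -, -⟩ := Frob.stmtFrob RR.stmtRR p κ F s hp hκ hF M
  rw [← hAP]
  exact exists_nsmul_mem_prin A D (by rw [Frob.curve_degHom_eq_degree hF.toBaseHyp, hD])

/-- **`Pic⁰` is torsion** over `𝔽̄_p`, for the class `IsFF` of `Lib/RR`. -/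
theorem pic0_torsion (p : ℕ) (hp : p.Prime) (κ : Type u) (F : Type v) [Field κ]
    [Field F] [Algebra κ F] [IsAlgClosed κ] [CharP κ p] [Fermat.Agent.Lib.RR.IsFF κ F]
    (hκ : ∀ a : κ, ∃ n : ℕ, 0 < n ∧ a ^ (p ^ n) = a)
    (D : Divisor κ F) (hD : Divisor.degree D = 0) :
    ∃ n : ℕ, 0 < n ∧ ∃ h : F, h ≠ 0 ∧ n • D = Fermat.Agent.Lib.RR.divOf h := by
  obtain ⟨n, hn, h, hh, hDh⟩ := pic0_torsion_of_curveHyp p hp κ F hκ
    (Fermat.Agent.Lib.RR.curveHyp_of_isFF Fermat.Agent.Lib.RR.residue_surjective) D hD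
  refine ⟨n, hn, h, hh, Finsupp.ext fun w => ?_⟩
  rw [hDh w, Fermat.Agent.Lib.RR.divOf_apply]

/-- **`Pic⁰` is torsion** for a function field over the residue field of a valuation subring of an
algebraic extension of `ℚ` of residue characteristic `r`. -/
theorem pic0_torsion_res {L : Type} [Field L] [Algebra ℚ L] [Algebra.IsAlgebraic ℚ L]
    (A : ValuationSubring L) (r : ℕ) (hr : r.Prime)
    [CharP (IsLocalRing.ResidueField ↥A) r] [IsAlgClosed (IsLocalRing.ResidueField ↥A)]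
    (F : Type v) [Field F] [Algebra (IsLocalRing.ResidueField ↥A) F]
    [Fermat.Agent.Lib.RR.IsFF (IsLocalRing.ResidueField ↥A) F]
    (D : Divisor (IsLocalRing.ResidueField ↥A) F) (hD : Divisor.degree D = 0) :
    ∃ n : ℕ, 0 < n ∧ ∃ h : F, h ≠ 0 ∧ n • D = Fermat.Agent.Lib.RR.divOf h :=
  pic0_torsion r hr _ F (exists_pow_eq_self_residueField A r hr) D hD

/-- **`Pic⁰ (E k M)` is torsion**, `k` the residue field of `A ⊆ ℚ̄`, `A` over the prime `r`
(format of `DR/Conc`; the two instances are provided by `Igusa.isAlgClosed_residueField A` and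
`Igusa.isFF_E k M hM`). -/
theorem pic0_torsion_E (A : ValuationSubring (AlgebraicClosure ℚ)) {r : ℕ} (hr : r.Prime)
    (hA : A.LiesOverPrime r) (M : ℕ) [IsAlgClosed (IsLocalRing.ResidueField ↥A)]
    [Fermat.Agent.Lib.RR.IsFF (IsLocalRing.ResidueField ↥A)
      (Fermat.Agent.GAL.Igusa.E (IsLocalRing.ResidueField ↥A) M)]
    (D : Divisor (IsLocalRing.ResidueField ↥A)
      (Fermat.Agent.GAL.Igusa.E (IsLocalRing.ResidueField ↥A) M))
    (hD : Divisor.degree D = 0) :
    ∃ n : ℕ, 0 < n ∧ ∃ h : Fermat.Agent.GAL.Igusa.E (IsLocalRing.ResidueField ↥A) M,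
      h ≠ 0 ∧ n • D = Fermat.Agent.Lib.RR.divOf h := by
  have hG : IsGalois ℚ (AlgebraicClosure ℚ) :=
    Fermat.Agent.Lib.Frobenius.isGalois_algebraicClosure inferInstance
  have halg : Algebra.IsAlgebraic ℚ (AlgebraicClosure ℚ) := hG.to_normal.toIsAlgebraic
  have hchar := Fermat.Agent.GAL.Hecke.charP_residueField A hr hA
  exact pic0_torsion_res A r hr _ D hD

/-- The contract `TorsStatement` of the block, via S27. -/
theorem torsStatement_viaS27 : TorsStatement := by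
  intro k _ _ r _ _ _ _ M _ _ hk D hD
  obtain ⟨n, hn, h, hh, hD'⟩ := pic0_torsion r Fact.out k (Fermat.Agent.GAL.Igusa.E k M) hk D hD
  exact ⟨n, hn, h, hh, hD'.symm⟩

end Fermat.Agent.S41.Tors
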