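import Fermat.Agent.S41.Tors.Abs.Main
import Fermat.Agent.S41.Tors.Conc.FixPl
import Fermat.Agent.S41.Tors.Conc.FixVec

/-!
# S41 / Tors / Main : the contract `TorsStatement`
-/

set_option autoImplicit false

namespace Fermat.Agent.S41.Tors

open AlgebraicCurve Fermat.Agent.Lib.RR Fermat.Agent.GAL Fermat.Agent.DR.Conc

theorem torsStatement : TorsStatement := by
  intro k _ _ r _ _ _ _ M _ _ hk D hD
  exact torsion_abs (Fr k M r) (exists_pow_Fr_smul k M r hk) (finite_fixed_places k M r)
    (exists_fixed_vector k M r hk) D hD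

end Fermat.Agent.S41.Tors
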